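/-
S18 / wave 4 (helper34): leaf L0 of the bridge sub-skeleton — the residue field of a valuation
subring of an algebraically closed field is algebraically closed, and it has characteristic `ℓ`
when the valuation subring lies over `ℓ`.
-/
import Mathlib
import Fermat.Prelude.Def_FLTPrelim_Ramification

set_option autoImplicit false

open Polynomial

namespace Fermat.Agent.S18.H34

/-- Every monic polynomial of positive degree over the residue field of a valuation subring of an
algebraically closed field has a root. -/
theorem exists_root_residueField {K : Type*} [Field K] [IsAlgClosed K] (A : ValuationSubring K)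
    (p : (IsLocalRing.ResidueField A)[X]) (hp : p.Monic) (hdeg : p.natDegree ≠ 0) :
    ∃ x : IsLocalRing.ResidueField A, p.eval x = 0 := by
  obtain ⟨q, hqmap, hqdeg, hqm⟩ :=
    Polynomial.lifts_and_natDegree_eq_and_monic
      ((Polynomial.mem_lifts p).mpr
        (Polynomial.map_surjective _ IsLocalRing.residue_surjective p)) hp
  -- a root of `q` in `K`
  have hdeg' : (q.map (algebraMap A K)).degree ≠ 0 := by
    rw [Polynomial.degree_map_eq_of_injective (FaithfulSMul.algebraMap_injective A K)]
    rw [Polynomial.degree_eq_natDegree hqm.ne_zero, hqdeg]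
    exact_mod_cast hdeg
  obtain ⟨z, hz⟩ := IsAlgClosed.exists_root (q.map (algebraMap A K)) hdeg'
  have hz' : Polynomial.eval₂ (algebraMap A K) z q = 0 := by
    rw [← Polynomial.eval_map]; exact hz
  have hzint : IsIntegral A z := ⟨q, hqm, hz'⟩
  obtain ⟨a, rfl⟩ := (IsIntegrallyClosed.isIntegral_iff (R := A) (K := K)).mp hzint
  refine ⟨IsLocalRing.residue A a, ?_⟩
  have hqa : q.eval a = 0 := by
    rw [Polynomial.eval₂_at_apply] at hz'
    exact (FaithfulSMul.algebraMap_injective A K) (by simpa using hz')
  rw [← hqmap, Polynomial.eval_map, Polynomial.eval₂_at_apply, hqa, map_zero]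

/-- **L0 (a)**: the residue field of a valuation subring of an algebraically closed field is
algebraically closed. -/
theorem isAlgClosed_residueField {K : Type*} [Field K] [IsAlgClosed K] (A : ValuationSubring K) :
    IsAlgClosed (IsLocalRing.ResidueField A) := by
  refine IsAlgClosed.of_exists_root _ fun p hp hirr => ?_
  exact exists_root_residueField A p hp hirr.natDegree_pos.ne'

/-- **L0 (b)**: the residue field of a valuation subring lying over `ℓ` has characteristic `ℓ`. -/
theorem charP_residueField {K : Type*} [Field K] (A : ValuationSubring K) {ℓ : ℕ}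
    [Fact ℓ.Prime] (hA : A.LiesOverPrime ℓ) : CharP (IsLocalRing.ResidueField A) ℓ := by
  have h0 : ((ℓ : ℕ) : IsLocalRing.ResidueField A) = 0 := by
    have hmem : ((ℓ : ℕ) : A) ∈ IsLocalRing.maximalIdeal A := by
      rw [IsLocalRing.mem_maximalIdeal, mem_nonunits_iff]
      intro hu
      have hA' : ((ℓ : ℕ) : K) ∈ A.nonunits := hA
      rw [ValuationSubring.mem_nonunits_iff_exists_mem_maximalIdeal] at hA'
      obtain ⟨ha, hmem⟩ := hA'
      rw [IsLocalRing.mem_maximalIdeal, mem_nonunits_iff] at hmem
      apply hmem
      have : (⟨((ℓ : ℕ) : K), ha⟩ : A) = ((ℓ : ℕ) : A) := Subtype.ext (by simp)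
      rw [this]; exact hu
    have := (IsLocalRing.residue_eq_zero_iff (R := A) _).mpr hmem
    simpa using this
  exact (CharP.charP_iff_prime_eq_zero (Fact.out : ℓ.Prime)).mpr h0

end Fermat.Agent.S18.H34
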